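import Fermat.Agent.Jacobian.Bridge.Rigidified
import Fermat.Prelude.Def_AlgebraicGeometry_RelPicardAlgEquivZeroCut

/-!
# Algebraic equivalence to zero, on cocycle classes
-/

set_option autoImplicit false

noncomputable section

universe u

open CategoryTheory CategoryTheory.Limits AlgebraicGeometry AlgebraicGeometry.RelPicard NeronModelInfra

namespace Fermat.Agent.Jacobian

/-- A class connected to the trivial one by a family over an integral base of finite type. -/
def PicAlgEquivZero {k : Type u} [Field k] {A : Scheme.{u}} (a : A ⟶ Spec (CommRingCat.of k))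
    (ξ : Pic A) : Prop :=
  ∃ (T' : Scheme.{u}) (h : T' ⟶ Spec (CommRingCat.of k)) (_ : LocallyOfFiniteType h)
    (_ : GeometricallyIntegral h) (η : Pic (pullback a h))
    (t₀ t₁ : SchemeHomOver (𝟙 (Spec (CommRingCat.of k))) h),
    Pic.comap (baseChangeSnd a t₀) η = 1 ∧
      Pic.comap (baseChangeSnd a t₁) η =
        Pic.comap (pullback.fst a (𝟙 (Spec (CommRingCat.of k)))) ξ

theorem isAlgEquivZero_iff {k : Type u} [Field k] {A : Scheme.{u}}
    (a : A ⟶ Spec (CommRingCat.of k)) {L : A.Modules} (hL : Scheme.Modules.IsInvertible L) :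
    IsAlgEquivZero a L ↔ PicAlgEquivZero a (picClass L hL) := by
  constructor
  · rintro ⟨T', h, hft, hgi, M, hM, t₀, t₁, e₀, e₁⟩
    refine ⟨T', h, hft, hgi, picClass M hM, t₀, t₁, ?_, ?_⟩
    · rw [← picClass_pullback _ hM, ← picClass_unit]
      exact (picClass_eq_iff _ _).mpr e₀
    · rw [← picClass_pullback _ hM, ← picClass_pullback _ hL]
      exact (picClass_eq_iff _ _).mpr e₁
  · rintro ⟨T', h, hft, hgi, η, t₀, t₁, e₀, e₁⟩
    obtain ⟨M, hM, rfl⟩ := exists_picClass_eq η
    refine ⟨T', h, hft, hgi, M, hM, t₀, t₁, ?_, ?_⟩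
    · refine (picClass_eq_iff (hM.pullback _) (Scheme.Modules.isInvertible_unit _)).mp ?_
      rw [picClass_pullback _ hM, e₀, picClass_unit]
    · refine (picClass_eq_iff (hM.pullback _) (hL.pullback _)).mp ?_
      rw [picClass_pullback _ hM, picClass_pullback _ hL, e₁]

variable {R : Type u} [CommRing R] {C : Scheme.{u}} {c : C ⟶ Spec (CommRingCat.of R)}
  {ε : SchemeHomOver (𝟙 (Spec (CommRingCat.of R))) c}
  {T : Scheme.{u}} {t : T ⟶ Spec (CommRingCat.of R)}

/-- Fibrewise algebraic equivalence to zero of a rigidified class. -/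
def RigPic.AlgEquivZero (ξ : RigPic c ε t) : Prop :=
  ∀ (k : Type u) [Field k] [IsAlgClosed k] (s : Spec (CommRingCat.of k) ⟶ T),
    PicAlgEquivZero (fibreAt c t s) (Pic.comap (pullback.fst (pullback.snd c t) s) ξ.1)

theorem fibrewiseAlgEquivZero_iff (M : RigidifiedLineBundle c ε t) :
    FibrewiseAlgEquivZero M ↔ (rigPicClass M).AlgEquivZero := by
  refine forall_congr' fun k => forall_congr' fun _ => forall_congr' fun _ => forall_congr' fun s => ?_
  rw [isAlgEquivZero_iff _ (M.isInvertible.pullback _), picClass_pullback _ M.isInvertible]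
  rfl

end Fermat.Agent.Jacobian
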