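import Fermat.Agent.Jacobian.Bridge.Hom
import Fermat.Prelude.Def_AlgebraicGeometry_RelativePicardFunctor

/-!
# Invertible modules and classes of cocycles
-/

set_option autoImplicit false

noncomputable section

universe u

open CategoryTheory TopologicalSpace AlgebraicGeometry Opposite
open scoped AlgebraicGeometry

namespace Fermat.Agent.Jacobian

variable {X Y : Scheme.{u}}

lemma IsFrame.smul {M : X.Modules} {U : X.Opens} {m : Γ(M, U)} (hm : IsFrame m) {r : Γ(X, U)}
    (hr : IsUnit r) : IsFrame (r • m) := fun V hV => by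
  have : (fun a : Γ(X, V) => a • Jacobian.mres hV (r • m)) =
      (fun a : Γ(X, V) => a • Jacobian.mres hV m) ∘ (· * res hV r) := by
    funext a
    simp [mres_smul, mul_smul]
  rw [this]
  exact (hm V hV).comp (hr.map (res hV)).unit.mulRight.bijective

/-- The section `1` of the unit module. -/
def unitOne (X : Scheme.{u}) (U : X.Opens) :
    Γ((SheafOfModules.unit X.ringCatSheaf : X.Modules), U) :=
  (1 : Γ(X, U))

lemma isFrame_unitOne (X : Scheme.{u}) (U : X.Opens) : IsFrame (unitOne X U) := by
  intro V hV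
  have : (fun r : Γ(X, V) => r • mres hV (unitOne X U)) = fun r : Γ(X, V) => r := by
    funext r
    show r * res hV (1 : Γ(X, U)) = r
    rw [map_one, mul_one]
  rw [this]
  exact Function.bijective_id

lemma smul_restrict {f : X ⟶ Y} [IsOpenImmersion f] (M : Y.Modules) {V : X.Opens}
    (r : Γ(X, V)) (m : Γ(M, f ''ᵁ V)) :
    (M.restrictAppIso f V).hom (r • (M.restrictAppIso f V).inv m) = (f.appIso V).inv r • m :=
  rfl

/-- Frames of a restricted module are frames of the module. -/
lemma isFrame_restrictAppIso_iff {f : X ⟶ Y} [IsOpenImmersion f] (M : Y.Modules) {U : X.Opens}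
    (m : Γ(M.restrict f, U)) :
    IsFrame (M := M) ((M.restrictAppIso f U).hom m) ↔ IsFrame m := by
  have key : ∀ (V : X.Opens) (hV : V ≤ U) (r : Γ(X, V)),
      (M.restrictAppIso f V).hom (r • mres hV m) =
        (f.appIso V).inv r • mres (f.image_mono hV) ((M.restrictAppIso f U).hom m) :=
    fun V hV r => rfl
  have hbij : ∀ V : X.Opens, Function.Bijective (f.appIso V).inv :=
    fun V => ConcreteCategory.bijective_of_isIso (f.appIso V).inv
  have hiff : ∀ (V : X.Opens) (hV : V ≤ U),
      (Function.Bijective fun r : Γ(Y, f ''ᵁ V) =>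
        r • mres (f.image_mono hV) ((M.restrictAppIso f U).hom m)) ↔
      Function.Bijective fun r : Γ(X, V) => r • mres hV m := by
    intro V hV
    rw [← Function.Bijective.of_comp_iff _ (hbij V),
      ← Function.Bijective.of_comp_iff' (ConcreteCategory.bijective_of_isIso
        (M.restrictAppIso f V).hom) (fun r : Γ(X, V) => r • mres hV m)]
    rfl
  constructor
  · exact fun h V hV => (hiff V hV).mp (h _ _)
  · intro h V hV
    obtain ⟨V', rfl⟩ : ∃ V', f ''ᵁ V' = V :=
      ⟨f ⁻¹ᵁ V, by
        rw [Scheme.Hom.image_preimage_eq_opensRange_inf, inf_eq_right]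
        exact hV.trans (f.image_le_opensRange U)⟩
    have hV' : V' ≤ U := by
      have := f.preimage_mono hV
      rwa [f.preimage_image_eq, f.preimage_image_eq] at this
    exact (hiff V' hV').mpr (h V' hV')

namespace LineCocycle

variable (L M : LineCocycle X)

/-- The same transition functions on a finer cover. -/
@[reducible] def shrink (V : X → X.Opens) (hmem : ∀ x, x ∈ V x) (hle : ∀ x, V x ≤ L.U x) :
    LineCocycle X where
  U := V
  mem := hmem
  g x y := L.tr x y (inf_le_left.trans (hle x)) (inf_le_right.trans (hle y))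
  g_self x W h := by simp
  g_mul x y z W hxy hyz hxz := by simp [tr_mul_tr]

lemma tr_shrink (V : X → X.Opens) (hmem : ∀ x, x ∈ V x) (hle : ∀ x, V x ≤ L.U x) (x y : X)
    {W : X.Opens} (hx : W ≤ V x) (hy : W ≤ V y) :
    (L.shrink V hmem hle).tr x y hx hy = L.tr x y (hx.trans (hle x)) (hy.trans (hle y)) :=
  L.res_tr x y (W := V x ⊓ V y) (inf_le_left.trans (hle x)) (inf_le_right.trans (hle y))
    (le_inf hx hy)

/-- A finer cover gives an isomorphic module. -/
def shrinkIso (V : X → X.Opens) (hmem : ∀ x, x ∈ V x) (hle : ∀ x, V x ≤ L.U x) :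
    (L.shrink V hmem hle).toModules ≅ L.toModules :=
  descIso (L := L.shrink V hmem hle) (n := fun x => mres (hle x) (L.frame x))
    (fun x y W hx hy => by
      rw [mres_mres, mres_mres, tr_shrink, L.isFrameFamily_frame x y W _ (hy.trans (hle y))])
    (fun x => (L.isFrame_frame x).mres (hle x))

variable {L M}

/-- Isomorphic cocycles have isomorphic modules. -/
theorem nonempty_iso_of_rel (e : Rel L M) : Nonempty (L.toModules ≅ M.toModules) := by
  refine ⟨(L.shrinkIso e.V e.mem e.leL).symm ≪≫ descIso (L := L.shrink e.V e.mem e.leL)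
    (n := fun x => (e.h x : Γ(X, e.V x)) • mres (e.leM x) (M.frame x)) (fun x y W hx hy => ?_)
    (fun x => ((M.isFrame_frame x).mres _).smul (e.h x).isUnit)⟩
  rw [mres_smul, mres_smul, mres_mres, mres_mres, tr_shrink,
    M.isFrameFamily_frame x y W (hx.trans (e.leM x)) (hy.trans (e.leM y)), ← mul_smul, ← mul_smul,
    mul_comm, e.comm x y W hx hy, mul_comm]

/-- Isomorphic modules come from isomorphic cocycles. -/
theorem rel_of_iso (φ : L.toModules ≅ M.toModules) : Nonempty (Rel L M) := by
  let n : ∀ x, M.Sect (L.U x) := fun x => M.toΓ.symm (φ.hom.app (L.U x) (L.frame x))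
  have hn : ∀ (x y : X) (W : X.Opens) (hx : W ≤ L.U x) (hy : W ≤ L.U y),
      (n y).restrict hy = L.tr x y hx hy • (n x).restrict hx := by
    intro x y W hx hy
    have h := congrArg M.toΓ.symm (show mres hy (φ.hom.app (L.U y) (L.frame y)) =
        L.tr x y hx hy • mres hx (φ.hom.app (L.U x) (L.frame x)) by
      rw [← app_mres, L.isFrameFamily_frame x y W hx hy, Scheme.Modules.Hom.app_smul, app_mres])
    exact h
  have hunit : ∀ x, IsUnit ((n x).at x (V := L.U x ⊓ M.U x) inf_le_left inf_le_right) := by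
    intro x
    obtain ⟨r, hr⟩ := (((L.isFrame_frame x).app φ) (L.U x ⊓ M.U x) inf_le_left).2
      (mres inf_le_right (M.frame x))
    have h := congrArg (fun m : Γ(M.toModules, L.U x ⊓ M.U x) =>
      (M.toΓ.symm m).at x le_rfl inf_le_right) hr
    simp only [toΓ_symm_smul, toΓ_symm_mres, Sect.at_smul, Sect.at_restrict, frame,
      AddEquiv.symm_apply_apply, Sect.at_single, tr_self, map_one, mul_one, res_refl] at h
    exact IsUnit.of_mul_eq_one r ((mul_comm _ r).trans h)
  refine ⟨⟨fun x => L.U x ⊓ M.U x, fun x => ⟨L.mem x, M.mem x⟩, fun _ => inf_le_left,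
    fun _ => inf_le_right, fun x => (hunit x).unit, fun x y W hx hy => ?_⟩⟩
  simp only [IsUnit.unit_spec, Sect.res_at]
  have h := congrArg (fun s : M.Sect W => s.at x le_rfl (hx.trans inf_le_right))
    (hn x y W (hx.trans inf_le_left) (hy.trans inf_le_left))
  simp only [Sect.at_restrict, Sect.at_smul, res_refl] at h
  rw [← Sect.at_eq (n y) x y, h, mul_comm]

theorem nonempty_iso_iff : Nonempty (L.toModules ≅ M.toModules) ↔ Pic.mk L = Pic.mk M :=
  ⟨fun ⟨φ⟩ => Pic.mk_eq_mk.mpr (rel_of_iso φ),
    fun h => (Pic.mk_eq_mk.mp h).elim nonempty_iso_of_rel⟩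

/-- The trivial cocycle gives the unit module. -/
def oneIso (X : Scheme.{u}) :
    (LineCocycle.one : LineCocycle X).toModules ≅ SheafOfModules.unit X.ringCatSheaf :=
  descIso (L := LineCocycle.one) (N := SheafOfModules.unit X.ringCatSheaf)
    (n := fun _ => unitOne X ⊤) (fun x y W hx hy => by rw [tr_one, one_smul])
    (fun _ => isFrame_unitOne X ⊤)

/-- A module with a frame is free of rank one. -/
theorem nonempty_restrict_iso_unit {N : X.Modules} {U : X.Opens} {m : Γ(N, U)} (hm : IsFrame m) :
    Nonempty (N.restrict U.ι ≅ SheafOfModules.unit U.toScheme.ringCatSheaf) := by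
  have h : U.ι ''ᵁ ⊤ ≤ U := U.ι_image_top.le
  let m' : Γ(N.restrict U.ι, ⊤) := (N.restrictAppIso U.ι ⊤).inv (mres h m)
  have hm' : IsFrame m' := by
    rw [← isFrame_restrictAppIso_iff]
    exact hm.mres h
  exact ⟨(descIso (L := LineCocycle.one) (n := fun _ => m')
    (fun x y W hx hy => by rw [tr_one, one_smul]) (fun _ => hm')).symm ≪≫ oneIso _⟩

/-- The module of a cocycle is invertible. -/
theorem isInvertible_toModules (L : LineCocycle X) :
    Scheme.Modules.IsInvertible L.toModules := by
  refine ⟨fun x => ⟨L.U x, L.mem x, ?_⟩⟩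
  obtain ⟨e⟩ := nonempty_restrict_iso_unit (L.isFrame_frame x)
  exact ⟨(Scheme.Modules.restrictFunctorIsoPullback _).symm.app _ ≪≫ e⟩

/-- Every invertible module comes from a cocycle. -/
theorem exists_toModules_iso {N : X.Modules} (hN : Scheme.Modules.IsInvertible N) :
    ∃ L : LineCocycle X, Nonempty (L.toModules ≅ N) := by
  have hfr : ∀ x : X, ∃ (U : X.Opens) (m : Γ(N, U)), x ∈ U ∧ IsFrame m := by
    intro x
    obtain ⟨U, hxU, ⟨e⟩⟩ := hN.1 x
    let r : N.restrict U.ι ≅ SheafOfModules.unit U.toScheme.ringCatSheaf :=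
      (Scheme.Modules.restrictFunctorIsoPullback _).app N ≪≫ e
    exact ⟨U.ι ''ᵁ ⊤, (N.restrictAppIso U.ι ⊤).hom (r.inv.app ⊤ (unitOne U.toScheme ⊤)),
      by rwa [U.ι_image_top],
      (isFrame_restrictAppIso_iff N _).mpr ((isFrame_unitOne U.toScheme ⊤).app r.symm)⟩
  choose U m hmem hm using hfr
  choose g hg using fun x y => (hm x (U x ⊓ U y) inf_le_left).2 (mres inf_le_right (m y))
  simp only [] at hg
  have hg' : ∀ x y (W : X.Opens) (h : W ≤ U x ⊓ U y),
      res h (g x y) • mres (h.trans inf_le_left) (m x) = mres (h.trans inf_le_right) (m y) := by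
    intro x y W h
    have := congrArg (mres h) (hg x y)
    simp only [mres_smul, mres_mres] at this
    exact this
  let L : LineCocycle X :=
    { U := U
      mem := hmem
      g := g
      g_self := fun x W h => by
        apply (hm x W (h.trans inf_le_left)).1
        simp only []
        rw [hg', one_smul]
      g_mul := fun x y z W hxy hyz hxz => by
        apply (hm x W (hxz.trans inf_le_left)).1
        simp only []
        rw [hg', mul_comm, mul_smul, hg' x y W hxy, hg' y z W hyz] }
  exact ⟨L, ⟨descIso (L := L) (n := m) (fun x y W hx hy => (hg' x y W (le_inf hx hy)).symm) hm⟩⟩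

end LineCocycle

/-- The class of an invertible module. -/
def picClass (N : X.Modules) (hN : Scheme.Modules.IsInvertible N) : Pic X :=
  Pic.mk (LineCocycle.exists_toModules_iso hN).choose

theorem picClass_eq_mk {N : X.Modules} (hN : Scheme.Modules.IsInvertible N) {L : LineCocycle X}
    (h : Nonempty (L.toModules ≅ N)) : picClass N hN = Pic.mk L :=
  LineCocycle.nonempty_iso_iff.mp
    ⟨(LineCocycle.exists_toModules_iso hN).choose_spec.some ≪≫ h.some.symm⟩

theorem picClass_toModules (L : LineCocycle X) :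
    picClass L.toModules L.isInvertible_toModules = Pic.mk L :=
  picClass_eq_mk _ ⟨Iso.refl _⟩

theorem picClass_eq_iff {N N' : X.Modules} (hN : Scheme.Modules.IsInvertible N)
    (hN' : Scheme.Modules.IsInvertible N') :
    picClass N hN = picClass N' hN' ↔ Nonempty (N ≅ N') := by
  obtain ⟨L, ⟨a⟩⟩ := LineCocycle.exists_toModules_iso hN
  obtain ⟨L', ⟨b⟩⟩ := LineCocycle.exists_toModules_iso hN'
  rw [picClass_eq_mk hN ⟨a⟩, picClass_eq_mk hN' ⟨b⟩, ← LineCocycle.nonempty_iso_iff]
  exact ⟨fun ⟨e⟩ => ⟨a.symm ≪≫ e ≪≫ b⟩, fun ⟨e⟩ => ⟨a ≪≫ e ≪≫ b.symm⟩⟩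

theorem picClass_congr {N N' : X.Modules} (hN : Scheme.Modules.IsInvertible N)
    (hN' : Scheme.Modules.IsInvertible N') (e : N ≅ N') : picClass N hN = picClass N' hN' :=
  (picClass_eq_iff hN hN').mpr ⟨e⟩

theorem exists_picClass_eq (ξ : Pic X) :
    ∃ (N : X.Modules) (hN : Scheme.Modules.IsInvertible N), picClass N hN = ξ := by
  obtain ⟨L, rfl⟩ := Pic.mk_surjective ξ
  exact ⟨_, L.isInvertible_toModules, picClass_toModules L⟩

theorem picClass_unit :
    picClass (SheafOfModules.unit X.ringCatSheaf) (Scheme.Modules.isInvertible_unit X) = 1 :=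
  picClass_eq_mk _ ⟨LineCocycle.oneIso X⟩

end Fermat.Agent.Jacobian
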