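import Fermat.Agent.Jacobian.Bridge.Modules

/-!
# Morphisms out of the module of a cocycle

A morphism `L.toModules ⟶ N` is the same as a family of sections `n x` of `N` over the members of
the cover, transforming like the frames of `L`.
-/

set_option autoImplicit false

noncomputable section

universe u

open CategoryTheory TopologicalSpace AlgebraicGeometry Opposite
open scoped AlgebraicGeometry

namespace Fermat.Agent.Jacobian

variable {X : Scheme.{u}}

/-- Restriction of sections of a sheaf of modules. -/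
def mres {M : X.Modules} {U V : X.Opens} (h : V ≤ U) : Γ(M, U) →+ Γ(M, V) :=
  (M.presheaf.map (homOfLE h).op).hom

@[simp] lemma mres_refl {M : X.Modules} {U : X.Opens} (h : U ≤ U) (m : Γ(M, U)) : mres h m = m := by
  simp [mres]

@[simp] lemma mres_mres {M : X.Modules} {U V W : X.Opens} (h : V ≤ U) (h' : W ≤ V) (m : Γ(M, U)) :
    mres h' (mres h m) = mres (h'.trans h) m := by
  show (M.presheaf.map (homOfLE h).op ≫ M.presheaf.map (homOfLE h').op) m = _
  rw [← Functor.map_comp]
  rfl

@[simp] lemma mres_smul {M : X.Modules} {U V : X.Opens} (h : V ≤ U) (r : Γ(X, U)) (m : Γ(M, U)) :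
    mres h (r • m) = res h r • mres h m :=
  Scheme.Modules.map_smul M (homOfLE h) r m

lemma app_mres {M N : X.Modules} (φ : M ⟶ N) {U V : X.Opens} (h : V ≤ U) (m : Γ(M, U)) :
    φ.app V (mres h m) = mres h (φ.app U m) :=
  ConcreteCategory.congr_hom (φ.mapPresheaf.naturality (homOfLE h).op) m

theorem existsUnique_mglue {M : X.Modules} {ι : Type u} {V : X.Opens} (O : ι → X.Opens)
    (hO : ∀ i, O i ≤ V) (hc : ∀ x ∈ V, ∃ i, x ∈ O i) (a : ∀ i, Γ(M, O i))
    (h : ∀ i j (W : X.Opens) (hi : W ≤ O i) (hj : W ≤ O j), mres hi (a i) = mres hj (a j)) :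
    ∃! b : Γ(M, V), ∀ i, mres (hO i) b = a i :=
  TopCat.Sheaf.existsUnique_gluing' (⟨M.presheaf, M.isSheaf⟩ : TopCat.Sheaf Ab X) O V
    (fun i => homOfLE (hO i)) (fun x hx => Opens.mem_iSup.mpr (hc x hx)) a
    (fun i j => h i j _ inf_le_left inf_le_right)

theorem meq_of_cover {M : X.Modules} {ι : Type u} {V : X.Opens} (O : ι → X.Opens)
    (hO : ∀ i, O i ≤ V) (hc : ∀ x ∈ V, ∃ i, x ∈ O i) {a b : Γ(M, V)}
    (h : ∀ i, mres (hO i) a = mres (hO i) b) : a = b :=
  TopCat.Sheaf.eq_of_locally_eq' (⟨M.presheaf, M.isSheaf⟩ : TopCat.Sheaf Ab X) O V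
    (fun i => homOfLE (hO i)) (fun x hx => Opens.mem_iSup.mpr (hc x hx)) a b h

/-- `m` is a frame of `M` on `U`. -/
def IsFrame {M : X.Modules} {U : X.Opens} (m : Γ(M, U)) : Prop :=
  ∀ (V : X.Opens) (h : V ≤ U), Function.Bijective fun r : Γ(X, V) => r • mres h m

lemma IsFrame.mres {M : X.Modules} {U U' : X.Opens} {m : Γ(M, U)} (hm : IsFrame m) (h : U' ≤ U) :
    IsFrame (mres h m) := fun V hV => by
  simpa using hm V (hV.trans h)

lemma IsFrame.app {M N : X.Modules} {U : X.Opens} {m : Γ(M, U)} (hm : IsFrame m) (e : M ≅ N) :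
    IsFrame (e.hom.app U m) := fun V hV => by
  have : (fun r : Γ(X, V) => r • Jacobian.mres hV (e.hom.app U m)) =
      (e.hom.app V) ∘ fun r : Γ(X, V) => r • Jacobian.mres hV m := by
    funext r
    rw [Function.comp_apply, Scheme.Modules.Hom.app_smul, app_mres]
  rw [this]
  exact (ConcreteCategory.bijective_of_isIso (e.hom.app V)).comp (hm V hV)

namespace LineCocycle

variable (L : LineCocycle X)

/-- Sections of `L` as sections of `L.toModules`. -/
def toΓ {W : X.Opens} : L.Sect W ≃+ Γ(L.toModules, W) := AddEquiv.refl (L.Sect W)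

lemma toΓ_smul {W : X.Opens} (r : Γ(X, W)) (s : L.Sect W) : L.toΓ (r • s) = r • L.toΓ s := rfl

lemma mres_toΓ {W V : X.Opens} (h : V ≤ W) (s : L.Sect W) :
    mres h (L.toΓ s) = L.toΓ (s.restrict h) := rfl

lemma toΓ_symm_mres {W V : X.Opens} (h : V ≤ W) (m : Γ(L.toModules, W)) :
    L.toΓ.symm (mres h m) = (L.toΓ.symm m).restrict h := rfl

lemma toΓ_symm_smul {W : X.Opens} (r : Γ(X, W)) (m : Γ(L.toModules, W)) :
    L.toΓ.symm (r • m) = r • L.toΓ.symm m := rfl

/-- The frame of index `x`. -/
def frame (x : X) : Γ(L.toModules, L.U x) := L.toΓ (Sect.single le_rfl 1)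

/-- A family of sections transforming like the frames of `L`. -/
def IsFrameFamily (N : X.Modules) (n : ∀ x, Γ(N, L.U x)) : Prop :=
  ∀ (x y : X) (W : X.Opens) (hx : W ≤ L.U x) (hy : W ≤ L.U y),
    mres hy (n y) = L.tr x y hx hy • mres hx (n x)

lemma isFrameFamily_frame : L.IsFrameFamily L.toModules L.frame := by
  intro x y W hx hy
  rw [frame, frame, mres_toΓ, mres_toΓ, ← toΓ_smul]
  congr 1
  refine Sect.ext' fun a => ?_
  simp only [Sect.at_restrict, Sect.at_single, Sect.at_smul, map_one, mul_one, res_tr]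
  rw [mul_comm, L.tr_mul_tr]

lemma isFrame_frame (x : X) : IsFrame (L.frame x) := by
  intro V hV
  have h : (fun r : Γ(X, V) => r • mres hV (L.frame x)) =
      L.toΓ ∘ (Sect.frameEquiv (L := L) hV).symm := by
    funext r
    rw [Function.comp_apply, frame, mres_toΓ, ← toΓ_smul]
    congr 1
    refine Sect.ext' fun a => ?_
    show _ = (Sect.single hV r).at a _ _
    simp [mul_comm]
  rw [h]
  exact L.toΓ.bijective.comp (Sect.frameEquiv hV).symm.bijective

variable {L} {N : X.Modules}

/-- A section is locally a multiple of the frames. -/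
lemma mres_eq_smul_frame {W : X.Opens} (s : L.Sect W) (x : X) {V : X.Opens} (hW : V ≤ W)
    (hx : V ≤ L.U x) :
    mres hW (L.toΓ s) = s.at x hW hx • mres hx (L.frame x) := by
  rw [frame, mres_toΓ, mres_toΓ, ← toΓ_smul]
  congr 1
  refine Sect.ext' fun a => ?_
  simp only [Sect.at_restrict, Sect.at_smul, Sect.at_single, map_one, mul_one, Sect.res_at]
  rw [Sect.at_eq s a x (inf_le_left.trans hW) inf_le_right (inf_le_left.trans hx), mul_comm]

/-- Morphisms out of `L.toModules` are determined by the images of the frames. -/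
theorem hom_ext_frame {φ ψ : L.toModules ⟶ N}
    (h : ∀ x, φ.app (L.U x) (L.frame x) = ψ.app (L.U x) (L.frame x)) : φ = ψ := by
  refine Scheme.Modules.hom_ext φ ψ fun W => ?_
  ext m
  obtain ⟨s, rfl⟩ := L.toΓ.surjective m
  refine meq_of_cover (fun x : X => W ⊓ L.U x) (fun _ => inf_le_left)
    (fun z hz => ⟨z, hz, L.mem z⟩) fun x => ?_
  rw [← app_mres, ← app_mres, mres_eq_smul_frame s x inf_le_left inf_le_right,
    Scheme.Modules.Hom.app_smul, Scheme.Modules.Hom.app_smul, app_mres, app_mres, h]

variable {n : ∀ x, Γ(N, L.U x)}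

theorem existsUnique_descApp (hn : L.IsFrameFamily N n) {W : X.Opens} (s : L.Sect W) :
    ∃! m : Γ(N, W), ∀ x : X, mres (inf_le_left : W ⊓ L.U x ≤ W) m =
      s.at x inf_le_left inf_le_right • mres (inf_le_right : W ⊓ L.U x ≤ L.U x) (n x) := by
  refine existsUnique_mglue (fun x => W ⊓ L.U x) (fun _ => inf_le_left)
    (fun z hz => ⟨z, hz, L.mem z⟩) _ fun x y V hx hy => ?_
  simp only [mres_smul, mres_mres, Sect.res_at]
  rw [hn x y V (hx.trans inf_le_right) (hy.trans inf_le_right), ← mul_smul,
    Sect.at_eq s x y (hx.trans inf_le_left) (hx.trans inf_le_right) (hy.trans inf_le_right),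
    mul_comm]

/-- The value of `desc` on a section. -/
def descApp (hn : L.IsFrameFamily N n) {W : X.Opens} (s : L.Sect W) : Γ(N, W) :=
  (existsUnique_descApp hn s).choose

lemma mres_descApp (hn : L.IsFrameFamily N n) {W V : X.Opens} (s : L.Sect W) (x : X) (hW : V ≤ W)
    (hx : V ≤ L.U x) : mres hW (descApp hn s) = s.at x hW hx • mres hx (n x) := by
  have := congrArg (mres (le_inf hW hx)) ((existsUnique_descApp hn s).choose_spec.1 x)
  simp only [mres_smul, mres_mres, Sect.res_at] at this
  exact this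

lemma descApp_eq (hn : L.IsFrameFamily N n) {W : X.Opens} {s : L.Sect W} {m : Γ(N, W)}
    (h : ∀ x : X, mres (inf_le_left : W ⊓ L.U x ≤ W) m =
      s.at x inf_le_left inf_le_right • mres (inf_le_right : W ⊓ L.U x ≤ L.U x) (n x)) :
    descApp hn s = m :=
  ((existsUnique_descApp hn s).choose_spec.2 m h).symm

lemma descApp_add (hn : L.IsFrameFamily N n) {W : X.Opens} (s t : L.Sect W) :
    descApp hn (s + t) = descApp hn s + descApp hn t :=
  descApp_eq hn fun x => by
    rw [map_add, mres_descApp hn s x _ inf_le_right, mres_descApp hn t x _ inf_le_right,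
      Sect.at_add, add_smul]

lemma descApp_smul (hn : L.IsFrameFamily N n) {W : X.Opens} (r : Γ(X, W)) (s : L.Sect W) :
    descApp hn (r • s) = r • descApp hn s :=
  descApp_eq hn fun x => by
    rw [mres_smul, mres_descApp hn s x _ inf_le_right, Sect.at_smul, mul_smul]

lemma descApp_restrict (hn : L.IsFrameFamily N n) {W V : X.Opens} (h : V ≤ W) (s : L.Sect W) :
    descApp hn (s.restrict h) = mres h (descApp hn s) :=
  descApp_eq hn fun x => by
    rw [mres_mres, mres_descApp hn s x _ inf_le_right, Sect.at_restrict]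

/-- The morphism given by a frame family. -/
def desc (hn : L.IsFrameFamily N n) : L.toModules ⟶ N :=
  ⟨PresheafOfModules.homMk
    { app := fun W => AddCommGrpCat.ofHom
        (AddMonoidHom.mk' (fun s : L.Sect W.unop => descApp hn s) (descApp_add hn))
      naturality := fun W W' f => by
        ext s
        exact descApp_restrict hn f.unop.le s }
    (fun W r s => descApp_smul hn r s)⟩

lemma app_desc (hn : L.IsFrameFamily N n) {W : X.Opens} (s : L.Sect W) :
    (desc hn).app W (L.toΓ s) = descApp hn s := rfl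

@[simp] lemma app_desc_frame (hn : L.IsFrameFamily N n) (x : X) :
    (desc hn).app (L.U x) (L.frame x) = n x := by
  rw [frame, app_desc]
  refine descApp_eq hn fun y => ?_
  rw [Sect.at_single, map_one, mul_one, ← hn y x _ inf_le_right inf_le_left]

/-- A family of frames gives an isomorphism. -/
theorem isIso_desc (hn : L.IsFrameFamily N n) (hf : ∀ x, IsFrame (n x)) : IsIso (desc hn) := by
  rw [Scheme.Modules.Hom.isIso_iff_isIso_app]
  intro W
  rw [ConcreteCategory.isIso_iff_bijective]
  refine ⟨fun a b hab => ?_, fun m => ?_⟩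
  · obtain ⟨s, rfl⟩ := L.toΓ.surjective a
    obtain ⟨t, rfl⟩ := L.toΓ.surjective b
    rw [app_desc, app_desc] at hab
    congr 1
    refine Sect.ext' fun x => (hf x (W ⊓ L.U x) inf_le_right).1 ?_
    simp only []
    rw [← mres_descApp hn s x inf_le_left, ← mres_descApp hn t x inf_le_left, hab]
  · let a : ∀ x, Γ(X, W ⊓ L.U x) := fun x =>
      ((hf x (W ⊓ L.U x) inf_le_right).2 (mres inf_le_left m)).choose
    have ha : ∀ x (V : X.Opens) (hW : V ≤ W) (hx : V ≤ L.U x),
        res (le_inf hW hx) (a x) • mres hx (n x) = mres hW m := by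
      intro x V hW hx
      have := congrArg (mres (le_inf hW hx))
        ((hf x (W ⊓ L.U x) inf_le_right).2 (mres inf_le_left m)).choose_spec
      simp only [mres_smul, mres_mres] at this
      exact this
    refine ⟨L.toΓ (Sect.mk a fun x y V hW hx hy => (hf x V hx).1 ?_), ?_⟩
    · simp only []
      rw [ha x V hW hx, mul_comm, mul_smul, ← hn x y V hx hy, ha y V hW hy]
    · rw [app_desc]
      refine descApp_eq hn fun x => ?_
      rw [Sect.at_mk, ha]

/-- The isomorphism given by a family of frames. -/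
def descIso (hn : L.IsFrameFamily N n) (hf : ∀ x, IsFrame (n x)) : L.toModules ≅ N :=
  haveI := isIso_desc hn hf
  asIso (desc hn)

end LineCocycle

end Fermat.Agent.Jacobian
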