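import Fermat.Agent.Jacobian.Sections
import Mathlib.AlgebraicGeometry.Modules.Sheaf
import Mathlib.Topology.Sheaves.SheafCondition.UniqueGluing

/-!
# The sheaf of modules of a cocycle
-/

set_option autoImplicit false

noncomputable section

universe u

open CategoryTheory TopologicalSpace AlgebraicGeometry Opposite

namespace Fermat.Agent.Jacobian

variable {X : Scheme.{u}}

namespace LineCocycle

variable (L : LineCocycle X)

/-- The abelian presheaf `W ↦ L.Sect W`. -/
def sectPresheaf : (Opens X)ᵒᵖ ⥤ Ab.{u} where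
  obj W := AddCommGrpCat.of (L.Sect W.unop)
  map f := AddCommGrpCat.ofHom
    (AddMonoidHom.mk' (fun s => Sect.restrict f.unop.le s) (Sect.restrict_add _))
  map_id W := by
    refine AddCommGrpCat.hom_ext (AddMonoidHom.ext fun s => ?_)
    exact Sect.ext' fun x => Sect.at_restrict (L := L) (le_refl (unop W)) s x _ _
  map_comp f g := by
    refine AddCommGrpCat.hom_ext (AddMonoidHom.ext fun s => ?_)
    exact Sect.ext' fun x => by simp

instance moduleSectPresheaf (W : (Opens X)ᵒᵖ) :
    Module (X.ringCatSheaf.obj.obj W) (L.sectPresheaf.obj W) :=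
  inferInstanceAs (Module Γ(X, W.unop) (L.Sect W.unop))

/-- The presheaf of modules `W ↦ L.Sect W`. -/
def modPresheaf : X.PresheafOfModules :=
  PresheafOfModules.ofPresheaf (R := X.ringCatSheaf.obj) L.sectPresheaf
    fun _ _ _ r s => Sect.restrict_smul _ r s

theorem isSheaf_modPresheaf : TopCat.Presheaf.IsSheaf (C := Ab) L.modPresheaf.presheaf := by
  change TopCat.Presheaf.IsSheaf (C := Ab) L.sectPresheaf
  rw [TopCat.Presheaf.isSheaf_iff_isSheafUniqueGluing]
  intro ι O sf hsf
  have hc : ∀ z ∈ iSup O, ∃ i, z ∈ O i := fun z hz => Opens.mem_iSup.mp hz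
  obtain ⟨t, ht⟩ := Sect.exists_glue (L := L) O (fun i => le_iSup O i) hc sf
    (fun i j x V hi hj hx => by
      have h := congrArg
        (fun s : L.Sect (O i ⊓ O j) => s.at x (le_inf hi hj) hx) (hsf i j)
      exact (Sect.at_restrict inf_le_left (sf i) x _ hx).symm.trans
        (h.trans (Sect.at_restrict inf_le_right (sf j) x _ hx)))
  refine ⟨t, ht, fun t' ht' => ?_⟩
  refine Sect.ext_of_cover (fun p : ι × X => O p.1 ⊓ L.U p.2)
    (fun p => inf_le_left.trans (le_iSup O p.1))
    (fun z hz => (hc z hz).elim fun i hi => ⟨(i, z), hi, L.mem z⟩)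
    (fun p => p.2) (fun p => inf_le_right) fun p => ?_
  have h : t'.restrict (le_iSup O p.1) = t.restrict (le_iSup O p.1) :=
    (ht' p.1).trans (ht p.1).symm
  have := congrArg (fun s : L.Sect (O p.1) => s.at p.2 (V := O p.1 ⊓ L.U p.2) inf_le_left
    inf_le_right) h
  exact (Sect.at_restrict (le_iSup O p.1) t' p.2 _ _).symm.trans
    (this.trans (Sect.at_restrict (le_iSup O p.1) t p.2 _ _))

/-- The line bundle of a cocycle. -/
def toModules : X.Modules := ⟨L.modPresheaf, L.isSheaf_modPresheaf⟩

end LineCocycle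

end Fermat.Agent.Jacobian
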