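import Fermat.Agent.Jacobian.Bridge.Class

/-!
# Pullback of modules and of cocycles
-/

set_option autoImplicit false

noncomputable section

universe u

open CategoryTheory TopologicalSpace AlgebraicGeometry Opposite
open scoped AlgebraicGeometry

namespace Fermat.Agent.Jacobian

variable {X Y : Scheme.{u}} (f : X ⟶ Y)

/-- Sections of a pushforward. -/
def pfΓ (N : X.Modules) (U : Y.Opens) :
    Γ((Scheme.Modules.pushforward f).obj N, U) ≃+ Γ(N, f ⁻¹ᵁ U) :=
  AddEquiv.refl _

lemma pfΓ_smul (N : X.Modules) {U : Y.Opens} (r : Γ(Y, U))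
    (m : Γ((Scheme.Modules.pushforward f).obj N, U)) :
    pfΓ f N U (r • m) = pb f le_rfl r • pfΓ f N U m := by
  rw [pb, Scheme.Hom.appLE_eq_app]
  rfl

lemma pfΓ_mres (N : X.Modules) {U V : Y.Opens} (h : V ≤ U)
    (m : Γ((Scheme.Modules.pushforward f).obj N, U)) :
    pfΓ f N V (mres h m) = mres (f.preimage_mono h) (pfΓ f N U m) :=
  rfl

lemma pfΓ_map {N N' : X.Modules} (φ : N ⟶ N') {U : Y.Opens}
    (m : Γ((Scheme.Modules.pushforward f).obj N, U)) :
    pfΓ f N' U (((Scheme.Modules.pushforward f).map φ).app U m) =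
      φ.app (f ⁻¹ᵁ U) (pfΓ f N U m) :=
  rfl

namespace LineCocycle

variable (L : LineCocycle Y)

/-- The pulled back frames. -/
def comapFrame (z : Y) :
    Γ((Scheme.Modules.pushforward f).obj (L.comap f).toModules, L.U z) :=
  (pfΓ f _ _).symm ((L.comap f).toΓ ((Sect.single (L := L) le_rfl 1).comap f le_rfl))

lemma pfΓ_comapFrame (z : Y) : pfΓ f _ _ (L.comapFrame f z) =
    (L.comap f).toΓ ((Sect.single (L := L) (le_refl (L.U z)) 1).comap f le_rfl) := rfl

lemma at_comap_single (z : Y) (x : X) {V : X.Opens} (hW : V ≤ f ⁻¹ᵁ L.U z)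
    (hx : V ≤ (L.comap f).U x) :
    ((Sect.single (L := L) (le_refl (L.U z)) 1).comap f le_rfl).at x hW hx =
      pb f (le_inf hx hW) (L.g (f x) z) := by
  rw [Sect.at_comap]
  simp only [Sect.single, Sect.mk, map_one, mul_one, LineCocycle.tr]
  exact pb_res f (U := L.U (f x) ⊓ L.U z) _ _ _

lemma isFrameFamily_comapFrame :
    L.IsFrameFamily ((Scheme.Modules.pushforward f).obj (L.comap f).toModules) (L.comapFrame f) := by
  intro z w W hz hw
  apply (pfΓ f _ _).injective
  rw [pfΓ_smul, pfΓ_mres, pfΓ_mres, pfΓ_comapFrame, pfΓ_comapFrame, mres_toΓ, mres_toΓ,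
    ← toΓ_smul]
  congr 1
  refine Sect.ext' fun x => ?_
  simp only [Sect.at_restrict, Sect.at_smul, at_comap_single, res_pb]
  let O : Y.Opens := W ⊓ L.U (f x)
  have hO : f ⁻¹ᵁ W ⊓ (L.comap f).U x ≤ f ⁻¹ᵁ O := le_inf inf_le_left inf_le_right
  have h := congrArg (pb f hO) (L.tr_mul_tr (f x) z w (W := O) inf_le_right
    (inf_le_left.trans hz) (inf_le_left.trans hw))
  simp only [LineCocycle.tr, map_mul, pb_res] at h ⊢
  rw [mul_comm]
  exact h.symm

/-- The comparison map from the pullback. -/
def pullbackHom :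
    (Scheme.Modules.pullback f).obj L.toModules ⟶ (L.comap f).toModules :=
  ((Scheme.Modules.pullbackPushforwardAdjunction f).homEquiv _ _).symm
    (desc (L.isFrameFamily_comapFrame f))

lemma unit_pullbackHom :
    (Scheme.Modules.pullbackPushforwardAdjunction f).unit.app L.toModules ≫
      (Scheme.Modules.pushforward f).map (L.pullbackHom f) =
    desc (L.isFrameFamily_comapFrame f) := by
  have h := Equiv.apply_symm_apply
    ((Scheme.Modules.pullbackPushforwardAdjunction f).homEquiv L.toModules (L.comap f).toModules)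
    (desc (L.isFrameFamily_comapFrame f))
  rw [Adjunction.homEquiv_unit] at h
  exact h

/-- The frames of the pullback. -/
def unitFrame (z : Y) : Γ((Scheme.Modules.pullback f).obj L.toModules, f ⁻¹ᵁ L.U z) :=
  pfΓ f _ _ (((Scheme.Modules.pullbackPushforwardAdjunction f).unit.app L.toModules).app (L.U z)
    (L.frame z))

lemma mres_unitFrame (z w : Y) {W : X.Opens} (hz : W ≤ f ⁻¹ᵁ L.U z) (hw : W ≤ f ⁻¹ᵁ L.U w) :
    mres hw (L.unitFrame f w) = pb f (le_inf hz hw) (L.g z w) • mres hz (L.unitFrame f z) := by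
  have hO : W ≤ f ⁻¹ᵁ (L.U z ⊓ L.U w) := le_inf hz hw
  let ν := (Scheme.Modules.pullbackPushforwardAdjunction f).unit.app L.toModules
  have h0 : mres (inf_le_right : L.U z ⊓ L.U w ≤ L.U w) (ν.app (L.U w) (L.frame w)) =
      L.g z w • mres (inf_le_left : L.U z ⊓ L.U w ≤ L.U z) (ν.app (L.U z) (L.frame z)) := by
    refine ((app_mres ν _ _).symm.trans ?_).trans
      (congrArg (L.g z w • ·) (app_mres ν _ _))
    rw [L.isFrameFamily_frame z w _ inf_le_left inf_le_right, Scheme.Modules.Hom.app_smul]
    exact congrArg (· • _) (res_refl _ _)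
  have h1 : mres (f.preimage_mono inf_le_right) (L.unitFrame f w) =
      pb f le_rfl (L.g z w) • mres (f.preimage_mono inf_le_left) (L.unitFrame f z) :=
    (pfΓ_mres f _ _ _).symm.trans ((congrArg (pfΓ f _ _) h0).trans ((pfΓ_smul f _ _ _).trans
      (congrArg (pb f le_rfl (L.g z w) • ·) (pfΓ_mres f _ _ _))))
  have h2 := congrArg (mres hO) h1
  rw [mres_mres, mres_smul, mres_mres, res_pb] at h2
  exact h2

lemma isFrameFamily_unitFrame :
    (L.comap f).IsFrameFamily ((Scheme.Modules.pullback f).obj L.toModules)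
      (fun x => L.unitFrame f (f x)) := by
  intro x y W hx hy
  rw [L.mres_unitFrame f (f x) (f y) hx hy, tr_comap]

lemma pullbackHom_unitFrame (z : Y) :
    (L.pullbackHom f).app (f ⁻¹ᵁ L.U z) (L.unitFrame f z) = pfΓ f _ _ (L.comapFrame f z) := by
  rw [unitFrame, ← pfΓ_map]
  congr 1
  rw [← app_desc_frame (L.isFrameFamily_comapFrame f) z, ← L.unit_pullbackHom f]
  rfl

/-- Pullback of modules is pullback of cocycles. -/
def pullbackIso : (Scheme.Modules.pullback f).obj L.toModules ≅ (L.comap f).toModules where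
  hom := L.pullbackHom f
  inv := desc (L.isFrameFamily_unitFrame f)
  hom_inv_id := by
    apply ((Scheme.Modules.pullbackPushforwardAdjunction f).homEquiv _ _).injective
    rw [Adjunction.homEquiv_unit, Adjunction.homEquiv_unit, Functor.map_comp, ← Category.assoc,
      L.unit_pullbackHom f, CategoryTheory.Functor.map_id]
    refine Eq.trans (hom_ext_frame fun z => ?_) (Category.comp_id _).symm
    rw [Scheme.Modules.Hom.comp_app]
    show ((Scheme.Modules.pushforward f).map (desc (L.isFrameFamily_unitFrame f))).app (L.U z)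
      ((desc (L.isFrameFamily_comapFrame f)).app (L.U z) (L.frame z)) = _
    rw [app_desc_frame]
    apply (pfΓ f _ _).injective
    rw [pfΓ_map, pfΓ_comapFrame, app_desc]
    refine descApp_eq _ fun x => ?_
    rw [at_comap_single]
    exact L.mres_unitFrame f (f x) z inf_le_right inf_le_left
  inv_hom_id := hom_ext_frame fun x => by
    rw [Scheme.Modules.Hom.comp_app]
    show (L.pullbackHom f).app _ ((desc (L.isFrameFamily_unitFrame f)).app ((L.comap f).U x)
      ((L.comap f).frame x)) = (L.comap f).frame x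
    rw [app_desc_frame]
    refine (L.pullbackHom_unitFrame f (f x)).trans ?_
    rw [pfΓ_comapFrame, frame]
    congr 1
    refine Sect.ext' fun a => ?_
    rw [at_comap_single, Sect.at_single, map_one, mul_one, tr_comap]

end LineCocycle

theorem picClass_pullback {N : Y.Modules} (hN : Scheme.Modules.IsInvertible N) :
    picClass ((Scheme.Modules.pullback f).obj N) (hN.pullback f) =
      Pic.comap f (picClass N hN) := by
  obtain ⟨L, ⟨e⟩⟩ := LineCocycle.exists_toModules_iso hN
  rw [picClass_eq_mk hN ⟨e⟩, Pic.comap_mk]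
  exact picClass_eq_mk _ ⟨(L.pullbackIso f).symm ≪≫ (Scheme.Modules.pullback f).mapIso e⟩

end Fermat.Agent.Jacobian
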