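import Fermat.Agent.Jacobian.Bridge.Pullback

/-!
# Rigidified line bundles as rigidified classes of cocycles
-/

set_option autoImplicit false

noncomputable section

universe u

open CategoryTheory CategoryTheory.Limits AlgebraicGeometry AlgebraicGeometry.RelPicard NeronModelInfra

namespace Fermat.Agent.Jacobian

variable {R : Type u} [CommRing R] {C : Scheme.{u}} (c : C ⟶ Spec (CommRingCat.of R))
  (ε : SchemeHomOver (𝟙 (Spec (CommRingCat.of R))) c)

/-- Classes on `C_T` trivial along the section. -/
abbrev RigPic {T : Scheme.{u}} (t : T ⟶ Spec (CommRingCat.of R)) : Type u :=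
  {ξ : Pic (pullback c t) // Pic.comap (rigSection c t ε) ξ = 1}

variable {c ε} {T T' : Scheme.{u}} {t : T ⟶ Spec (CommRingCat.of R)}
  {t' : T' ⟶ Spec (CommRingCat.of R)}

/-- The class of a rigidified bundle. -/
def rigPicClass (M : RigidifiedLineBundle c ε t) : RigPic c ε t :=
  ⟨picClass M.L M.isInvertible, by
    rw [← picClass_pullback, ← picClass_unit]
    exact (picClass_eq_iff _ _).mpr M.rigidified⟩

@[simp] lemma coe_rigPicClass (M : RigidifiedLineBundle c ε t) :
    (rigPicClass M).1 = picClass M.L M.isInvertible := rfl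

lemma rigPicClass_eq_iff (M M' : RigidifiedLineBundle c ε t) :
    rigPicClass M = rigPicClass M' ↔ Nonempty (M.L ≅ M'.L) := by
  rw [Subtype.ext_iff, coe_rigPicClass, coe_rigPicClass, picClass_eq_iff]

lemma rigPicClass_surjective :
    Function.Surjective (rigPicClass : RigidifiedLineBundle c ε t → RigPic c ε t) := by
  rintro ⟨ξ, hξ⟩
  obtain ⟨L, rfl⟩ := Pic.mk_surjective ξ
  refine ⟨⟨L.toModules, L.isInvertible_toModules, ?_⟩, Subtype.ext (picClass_toModules L)⟩
  refine (picClass_eq_iff (L.isInvertible_toModules.pullback _)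
    (Scheme.Modules.isInvertible_unit _)).mp ?_
  rw [picClass_pullback _ L.isInvertible_toModules, picClass_toModules, hξ, picClass_unit]

/-- Pullback of rigidified classes. -/
def RigPic.map (ψ : SchemeHomOver t' t) (ξ : RigPic c ε t) : RigPic c ε t' :=
  ⟨Pic.comap (baseChangeSnd c ψ) ξ.1, by
    rw [← Pic.comap_comp, rigSection_baseChangeSnd, Pic.comap_comp, ξ.2, map_one]⟩

@[simp] lemma RigPic.coe_map (ψ : SchemeHomOver t' t) (ξ : RigPic c ε t) :
    (RigPic.map ψ ξ).1 = Pic.comap (baseChangeSnd c ψ) ξ.1 := rfl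

lemma rigPicClass_pullbackAlong (M : RigidifiedLineBundle c ε t) (ψ : SchemeHomOver t' t) :
    rigPicClass (M.pullbackAlong ψ) = RigPic.map ψ (rigPicClass M) :=
  Subtype.ext (picClass_pullback _ M.isInvertible)

lemma rigPicClass_unit :
    (rigPicClass (RigidifiedLineBundle.unit (c := c) (ε := ε) t)).1 = 1 :=
  picClass_unit

variable (c ε t) in
/-- Rigidified bundles up to isomorphism are rigidified classes. -/
def classesEquiv : RigidifiedLineBundle.Classes c ε t ≃ RigPic c ε t :=
  Equiv.ofBijective
    (Quotient.lift rigPicClass fun M M' h => (rigPicClass_eq_iff M M').mpr h)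
    ⟨fun a b => by
      induction a using Quotient.ind
      induction b using Quotient.ind
      exact fun h => Quotient.sound ((rigPicClass_eq_iff _ _).mp h),
     fun ξ => (rigPicClass_surjective ξ).elim fun M hM => ⟨Quotient.mk _ M, hM⟩⟩

@[simp] lemma classesEquiv_mk (M : RigidifiedLineBundle c ε t) :
    classesEquiv c ε t (Quotient.mk _ M) = rigPicClass M := rfl

lemma classesEquiv_classesMap (ψ : SchemeHomOver t' t) (x : RigidifiedLineBundle.Classes c ε t) :
    classesEquiv c ε t' (RigidifiedLineBundle.classesMap ψ x) =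
      RigPic.map ψ (classesEquiv c ε t x) := by
  induction x using Quotient.ind with
  | _ M => exact rigPicClass_pullbackAlong M ψ

lemma nonempty_pullbackAlong_iso_iff (P : RigidifiedLineBundle c ε t)
    (M : RigidifiedLineBundle c ε t') (g : SchemeHomOver t' t) :
    Nonempty ((P.pullbackAlong g).L ≅ M.L) ↔ RigPic.map g (rigPicClass P) = rigPicClass M := by
  rw [← rigPicClass_pullbackAlong, rigPicClass_eq_iff]

end Fermat.Agent.Jacobian
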